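/-
helper47, P-ES / ES-D-PINCH: the abstract pinch lemma
`Fermat.Agent.H27.ESD.PinchStatement`.

From Riemann–Hurwitz on both sides (equality on the tame side, inequality on the other side)
and the fibrewise inequality `Σ_{v ∈ s} (e_v - 1) ≤ ē_w - 1`, conclude `g₁ ≤ g₂`.
-/
import Fermat.Agent.H27.ESD.Interfaces1b

set_option autoImplicit false
set_option synthInstance.maxHeartbeats 400000

open AlgebraicCurve ModularCurve

namespace Fermat.Agent.H47

open Fermat.Agent.H27.ESD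

/-- Purely combinatorial core of the pinch lemma: if `e ≥ 1`, `ē ≥ 1` pointwise, both have finite
"ramified" support, and `Σ_{v ∈ s} (e_v - 1) ≤ ē_w - 1` for every finite `s` inside the fibre of
`r` over `w`, then `Σᶠ_v (e_v - 1) ≤ Σᶠ_w (ē_w - 1)`. -/
theorem finsum_ram_le_of_fibrewise {α β : Type*} (r : α → β) (e : α → ℕ) (ebar : β → ℕ)
    (hS₁ : {v | 1 < e v}.Finite) (hS₂ : {w | 1 < ebar w}.Finite)
    (hpos₁ : ∀ v, 1 ≤ e v)
    (hfib : ∀ w : β, ∀ s : Finset α, (∀ v ∈ s, r v = w) →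
      ∑ v ∈ s, ((e v : ℤ) - 1) ≤ (ebar w : ℤ) - 1) :
    ∑ᶠ v, ((e v : ℤ) - 1) ≤ ∑ᶠ w, ((ebar w : ℤ) - 1) := by
  classical
  have hpos₂ : ∀ w, 1 ≤ ebar w := by
    intro w
    have h := hfib w ∅ (by simp)
    simp only [Finset.sum_empty] at h
    omega
  set S : Finset α := hS₁.toFinset with hS
  set T : Finset β := S.image r ∪ hS₂.toFinset with hT
  have hsum₁ : ∑ᶠ v, ((e v : ℤ) - 1) = ∑ v ∈ S, ((e v : ℤ) - 1) := by
    apply finsum_eq_sum_of_support_subset
    intro v hv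
    simp only [Function.mem_support] at hv
    simp only [hS, Set.Finite.coe_toFinset, Set.mem_ofPred_eq]
    have := hpos₁ v
    omega
  have hsum₂ : ∑ᶠ w, ((ebar w : ℤ) - 1) = ∑ w ∈ T, ((ebar w : ℤ) - 1) := by
    apply finsum_eq_sum_of_support_subset
    intro w hw
    simp only [Function.mem_support] at hw
    have hw' : 1 < ebar w := by
      have := hpos₂ w
      omega
    simp only [hT, Finset.coe_union, Set.mem_union, Set.Finite.coe_toFinset, Set.mem_ofPred_eq]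
    exact Or.inr hw'
  rw [hsum₁, hsum₂]
  calc ∑ v ∈ S, ((e v : ℤ) - 1)
      = ∑ w ∈ S.image r, ∑ v ∈ S with r v = w, ((e v : ℤ) - 1) :=
        (Finset.sum_fiberwise_of_maps_to (fun v hv => Finset.mem_image_of_mem r hv) _).symm
    _ ≤ ∑ w ∈ S.image r, ((ebar w : ℤ) - 1) :=
        Finset.sum_le_sum (fun w _ => hfib w _ (fun v hv => (Finset.mem_filter.mp hv).2))
    _ ≤ ∑ w ∈ T, ((ebar w : ℤ) - 1) :=
        Finset.sum_le_sum_of_subset_of_nonneg Finset.subset_union_left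
          (fun w _ _ => by have := hpos₂ w; omega)

/-- **ES-D-PINCH**: the abstract pinch lemma. -/
theorem pinchStatement : Fermat.Agent.H27.ESD.PinchStatement := by
  intro hH K₁ F₁ K₂ F₂ _ _ _ _ _ _ _ _ g₁ g₂ hR₁ hR₂ r y ybar hy hybar hfin₁ hfin₂ hsep₁ hsep₂
    hn htame hfib
  obtain ⟨hS₁, -, heq₁⟩ := hH K₁ F₁ y hy hfin₁ hsep₁ g₁ hR₁
  obtain ⟨hS₂, hle₂, -⟩ := hH K₂ F₂ ybar hybar hfin₂ hsep₂ g₂ hR₂
  have heq := heq₁ htame
  have hpos₁ : ∀ v : Place K₁ F₁, 1 ≤ ramIdx y v := by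
    intro v
    have h := htame v
    rcases Nat.eq_zero_or_pos (ramIdx y v) with h0 | h0
    · rw [h0] at h
      simp at h
    · exact h0
  have hmain := finsum_ram_le_of_fibrewise r (ramIdx y) (ramIdx ybar) hS₁ hS₂ hpos₁ hfib
  rw [heq, hn] at hmain
  have h2 := hmain.trans hle₂
  omega

end Fermat.Agent.H47
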