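/-
helper47, P-ES / ES-D (support for ES-D-A4, Hurwitz): the exponent of a tamely ramified prime
in the different.

Mathlib has `pow_sub_one_dvd_differentIdeal` (`P ^ (e - 1) ∣ differentIdeal A B`).  Here we prove
the complementary statement: if `e · f` is nonzero in the residue field `A ⧸ p`, then
`P ^ e ∤ differentIdeal A B`.  In the geometric case (`f = 1`) this is the tame case of
Dedekind's different theorem.
-/
import Mathlib

set_option autoImplicit false
set_option linter.deprecated false
set_option linter.overlappingInstances false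

open Algebra Module

namespace Fermat.Agent.H47

attribute [local instance] Ideal.Quotient.field
attribute [local instance] FractionRing.liftAlgebra FractionRing.isScalarTower_liftAlgebra

/-- If `I * Q = p B` with `I`, `Q` coprime and the dimension of `B ⧸ I` over `A ⧸ p` is nonzero
in `A ⧸ p`, then `I` does not divide the different. -/
theorem not_dvd_differentIdeal_of_finrank_ne_zero
    (A : Type*) {B : Type*} [CommRing A] [CommRing B] [Algebra A B] [IsDomain A]
    [IsDedekindDomain A] [IsDedekindDomain B] [Module.IsTorsionFree A B] [Module.Finite A B]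
    [Algebra.IsSeparable (FractionRing A) (FractionRing B)]
    {p : Ideal A} [p.IsMaximal] (I Q : Ideal B)
    (hIQ : IsCoprime I Q) (hI : I * Q = Ideal.map (algebraMap A B) p)
    [Algebra (A ⧸ p) (B ⧸ I)] [IsScalarTower A (A ⧸ p) (B ⧸ I)]
    (hrank : ((Module.finrank (A ⧸ p) (B ⧸ I) : ℕ) : A ⧸ p) ≠ 0) :
    ¬ I ∣ differentIdeal A B := by
  let _ : Algebra (A ⧸ p) (B ⧸ Q) := Ideal.Quotient.algebraQuotientOfLEComap (by
      rw [← Ideal.map_le_iff_le_comap, ← hI]
      exact Ideal.mul_le_right)
  have : IsScalarTower A (A ⧸ p) (B ⧸ Q) := .of_algebraMap_eq' rfl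
  have : Module.Finite (A ⧸ p) (B ⧸ I) :=
    Module.Finite.of_restrictScalars_finite A (A ⧸ p) (B ⧸ I)
  have : Module.Finite (A ⧸ p) (B ⧸ Q) :=
    Module.Finite.of_restrictScalars_finite A (A ⧸ p) (B ⧸ Q)
  let e : (B ⧸ p.map (algebraMap A B)) ≃ₐ[A ⧸ p] ((B ⧸ I) × B ⧸ Q) :=
    { __ := (Ideal.quotEquivOfEq hI.symm).trans (Ideal.quotientMulEquivQuotientProd I Q hIQ),
      commutes' := by
        intro r
        obtain ⟨a, rfl⟩ := Ideal.Quotient.mk_surjective r
        refine Prod.ext ?_ ?_
        · change _ = algebraMap (A ⧸ p) (B ⧸ I) (algebraMap A (A ⧸ p) a)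
          rw [← IsScalarTower.algebraMap_apply A (A ⧸ p) (B ⧸ I)]
          rfl
        · rfl }
  obtain ⟨y, hy⟩ := Ideal.Quotient.mk_surjective (e.symm ((1 : B ⧸ I), 0))
  refine not_dvd_differentIdeal_of_intTrace_not_mem A I Q hI y ?_ ?_
  · have := congr((e $hy).2)
    simp at this
    simpa [e, Ideal.Quotient.eq_zero_iff_mem] using this
  · rw [← Ideal.Quotient.eq_zero_iff_mem, ← Algebra.trace_quotient_eq_of_isDedekindDomain,
      hy, Algebra.trace_eq_of_algEquiv, Algebra.trace_prod_apply]
    have h1 : Algebra.trace (A ⧸ p) (B ⧸ I) 1 = ((Module.finrank (A ⧸ p) (B ⧸ I) : ℕ) : A ⧸ p) := by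
      have := Algebra.trace_algebraMap (R := A ⧸ p) (S := B ⧸ I) 1
      simpa using this
    simpa [h1] using hrank

/-- **Tame case of Dedekind's different theorem** (residue degree one): if `A → B ⧸ P` is
surjective and the ramification index `e` of `P` is nonzero in `A ⧸ p`, then
`P ^ e ∤ differentIdeal A B`. -/
theorem not_pow_ramificationIdx'_dvd_differentIdeal
    (A : Type*) {B : Type*} [CommRing A] [CommRing B] [Algebra A B] [IsDomain A]
    [IsDedekindDomain A] [IsDedekindDomain B] [Module.IsTorsionFree A B] [Module.Finite A B]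
    [Algebra.IsSeparable (FractionRing A) (FractionRing B)]
    {p : Ideal A} [p.IsMaximal] (hp : p ≠ ⊥) (P : Ideal B) [P.IsMaximal] [P.LiesOver p]
    (hsurj : Function.Surjective (algebraMap A (B ⧸ P)))
    (htame : ((p.ramificationIdx' P : ℕ) : A ⧸ p) ≠ 0) :
    ¬ P ^ (p.ramificationIdx' P) ∣ differentIdeal A B := by
  classical
  have hp' : p.map (algebraMap A B) ≠ ⊥ := Ideal.map_ne_bot_of_ne_bot hp
  have hP0 : P ≠ ⊥ := by
    rintro rfl
    apply hp'
    have hle : p.map (algebraMap A B) ≤ (⊥ : Ideal B) :=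
      Ideal.map_le_iff_le_comap.mpr (Ideal.LiesOver.over (p := p) (P := (⊥ : Ideal B))).le
    exact le_bot_iff.mp hle
  have he0 : p.ramificationIdx' P ≠ 0 := Ideal.IsDedekindDomain.ramificationIdx'_ne_zero_of_liesOver P hp
  have hcount := Ideal.IsDedekindDomain.ramificationIdx'_eq_normalizedFactors_count hp'
    (inferInstance : P.IsPrime) hP0
  obtain ⟨Q, hPQ, hQ⟩ := Ideal.eq_prime_pow_mul_coprime hp' P
  rw [← hcount] at hQ
  have : NeZero (p.ramificationIdx' P) := ⟨he0⟩
  let _ : Algebra (A ⧸ p) (B ⧸ P) := Ideal.Quotient.algebraQuotientOfRamificationIdxNeZero p P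
  have hf : Module.finrank (A ⧸ p) (B ⧸ P) = 1 := by
    rw [finrank_eq_one_iff_of_nonzero' (1 : B ⧸ P) one_ne_zero]
    intro w
    obtain ⟨a, rfl⟩ := hsurj w
    refine ⟨Ideal.Quotient.mk p a, ?_⟩
    rw [Algebra.smul_def, mul_one, Ideal.Quotient.algebraMap_quotient_of_ramificationIdx_neZero]
    rfl
  have hfe := Ideal.finrank_prime_pow_ramificationIdx p P hP0 he0
  rw [hf, mul_one] at hfe
  have : IsScalarTower A (A ⧸ p) (B ⧸ P ^ p.ramificationIdx' P) :=
    IsScalarTower.of_algebraMap_eq' (by
      ext x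
      exact (Ideal.Quotient.algebraMap_quotient_pow_ramificationIdx p P x).symm)
  refine not_dvd_differentIdeal_of_finrank_ne_zero A (P ^ p.ramificationIdx' P) Q
    (IsCoprime.pow_left (Ideal.isCoprime_iff_sup_eq.mpr hPQ)) hQ.symm ?_
  rw [hfe]
  exact htame

/-- The same with the new-style ramification index `P.ramificationIdx A`. -/
theorem not_pow_ramificationIdx_dvd_differentIdeal
    (A : Type*) {B : Type*} [CommRing A] [CommRing B] [Algebra A B] [IsDomain A]
    [IsDedekindDomain A] [IsDedekindDomain B] [Module.IsTorsionFree A B] [Module.Finite A B]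
    [Algebra.IsSeparable (FractionRing A) (FractionRing B)]
    {p : Ideal A} [p.IsMaximal] (hp : p ≠ ⊥) (P : Ideal B) [P.IsMaximal] [P.LiesOver p]
    (hsurj : Function.Surjective (algebraMap A (B ⧸ P)))
    (htame : ((P.ramificationIdx A : ℕ) : A ⧸ p) ≠ 0) :
    ¬ P ^ (P.ramificationIdx A) ∣ differentIdeal A B := by
  have h := Ideal.ramificationIdx'_eq_ramificationIdx p P hp
  rw [← h] at htame ⊢
  exact not_pow_ramificationIdx'_dvd_differentIdeal A hp P hsurj htame

/-- Lower bound (always): `e - 1 ≤ v_P(different)`. -/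
theorem ramificationIdx_sub_one_le_count_differentIdeal
    (A : Type*) {B : Type*} [CommRing A] [CommRing B] [Algebra A B] [IsDomain A]
    [IsDedekindDomain A] [IsDedekindDomain B] [Module.IsTorsionFree A B] [Module.Finite A B]
    [Algebra.IsSeparable (FractionRing A) (FractionRing B)]
    {p : Ideal A} [p.IsMaximal] (hp : p ≠ ⊥) (P : Ideal B) [P.IsMaximal] [P.LiesOver p]
    [DecidableEq (Ideal B)] :
    P.ramificationIdx A - 1 ≤
      Multiset.count P (UniqueFactorizationMonoid.normalizedFactors (differentIdeal A B)) := by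
  have hp' : p.map (algebraMap A B) ≠ ⊥ := Ideal.map_ne_bot_of_ne_bot hp
  have hP0 : P ≠ ⊥ := by
    rintro rfl
    apply hp'
    have hle : p.map (algebraMap A B) ≤ (⊥ : Ideal B) :=
      Ideal.map_le_iff_le_comap.mpr (Ideal.LiesOver.over (p := p) (P := (⊥ : Ideal B))).le
    exact le_bot_iff.mp hle
  have hPirr := (Ideal.prime_of_isPrime hP0 (inferInstance : P.IsPrime)).irreducible
  have h1 : P ^ (P.ramificationIdx A) ∣ p.map (algebraMap A B) := by
    rw [← Ideal.ramificationIdx'_eq_ramificationIdx p P hp, Ideal.dvd_iff_le]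
    exact Ideal.le_pow_of_le_ramificationIdx' le_rfl
  have h2 := pow_sub_one_dvd_differentIdeal A P (P.ramificationIdx A) hp h1
  rw [UniqueFactorizationMonoid.dvd_iff_normalizedFactors_le_normalizedFactors
    (pow_ne_zero _ hP0) differentIdeal_ne_bot,
    UniqueFactorizationMonoid.normalizedFactors_pow,
    UniqueFactorizationMonoid.normalizedFactors_irreducible hPirr, normalize_eq,
    Multiset.nsmul_singleton, ← Multiset.le_count_iff_replicate_le] at h2
  exact h2

/-- Tame case (residue degree one): `v_P(different) = e - 1`. -/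
theorem count_differentIdeal_eq_of_tame
    (A : Type*) {B : Type*} [CommRing A] [CommRing B] [Algebra A B] [IsDomain A]
    [IsDedekindDomain A] [IsDedekindDomain B] [Module.IsTorsionFree A B] [Module.Finite A B]
    [Algebra.IsSeparable (FractionRing A) (FractionRing B)]
    {p : Ideal A} [p.IsMaximal] (hp : p ≠ ⊥) (P : Ideal B) [P.IsMaximal] [P.LiesOver p]
    [DecidableEq (Ideal B)]
    (hsurj : Function.Surjective (algebraMap A (B ⧸ P)))
    (htame : ((P.ramificationIdx A : ℕ) : A ⧸ p) ≠ 0) :
    Multiset.count P (UniqueFactorizationMonoid.normalizedFactors (differentIdeal A B)) =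
      P.ramificationIdx A - 1 := by
  have hp' : p.map (algebraMap A B) ≠ ⊥ := Ideal.map_ne_bot_of_ne_bot hp
  have hP0 : P ≠ ⊥ := by
    rintro rfl
    apply hp'
    have hle : p.map (algebraMap A B) ≤ (⊥ : Ideal B) :=
      Ideal.map_le_iff_le_comap.mpr (Ideal.LiesOver.over (p := p) (P := (⊥ : Ideal B))).le
    exact le_bot_iff.mp hle
  have hPirr := (Ideal.prime_of_isPrime hP0 (inferInstance : P.IsPrime)).irreducible
  have hlow := ramificationIdx_sub_one_le_count_differentIdeal A hp P
  have hnot := not_pow_ramificationIdx_dvd_differentIdeal A hp P hsurj htame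
  have hepos : 0 < P.ramificationIdx A := Ideal.ramificationIdx_pos P A
  rw [UniqueFactorizationMonoid.dvd_iff_normalizedFactors_le_normalizedFactors
    (pow_ne_zero _ hP0) differentIdeal_ne_bot,
    UniqueFactorizationMonoid.normalizedFactors_pow,
    UniqueFactorizationMonoid.normalizedFactors_irreducible hPirr, normalize_eq,
    Multiset.nsmul_singleton, ← Multiset.le_count_iff_replicate_le] at hnot
  omega

end Fermat.Agent.H47
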